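/-
P-CFT row 555 (helper47), part 3: **[L-EXT]** `LExtClosedStatement`.

* `dualTwistMap_injective / _surjective / _exact` : the twisted dual is exact (over a field).
* `isTrivialisedBy_dualTwist` : `M^*(χ)` is trivialised by a level if `M` and `χ` are.
* `lDualSide_shortExact` : the local dual side `M ↦ dualCx2 (C(Γ, M^*(χ)))` is exact on short
  exact sequences with trivialised middle term.
* `lDualityP_τ₂` : generic four-lemma core for `LDualityP`.
* `lExtClosed : LExtClosedStatement`.
-/
import Fermat.Agent.H47.Cft.LocalNat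
import Fermat.Agent.H50.Cft.ExtCore
import Fermat.Agent.H87.Cft.LvlSes

set_option autoImplicit false
set_option linter.style.haveILetI false

universe u

open CategoryTheory groupCohomology

namespace Fermat.Agent.H47.Cft

open Fermat.Agent.H13.Cft Fermat.Agent.H53 HomologicalComplex

/-! ### exactness of the dual over a field -/

section linear

variable {k : Type u} [Field k] {A B C : Type u} [AddCommGroup A] [AddCommGroup B]
  [AddCommGroup C] [Module k A] [Module k B] [Module k C]

/-- the transpose of a surjection is injective -/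
theorem transpose_injective (p : B →ₗ[k] C) (hp : Function.Surjective p) :
    Function.Injective (Module.Dual.transpose (R := k) p) := by
  intro ξ η h
  refine LinearMap.ext fun c => ?_
  obtain ⟨b, rfl⟩ := hp c
  exact LinearMap.congr_fun h b

/-- the transpose of an injection is surjective (over a field) -/
theorem transpose_surjective (i : A →ₗ[k] B) (hi : Function.Injective i) :
    Function.Surjective (Module.Dual.transpose (R := k) i) :=
  LinearMap.dualMap_surjective_of_injective hi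

/-- exactness of the transposed sequence in the middle -/
theorem transpose_exact (i : A →ₗ[k] B) (p : B →ₗ[k] C)
    (hex : ∀ b, p b = 0 → ∃ a, i a = b) (ζ : Module.Dual k B)
    (hζ : Module.Dual.transpose (R := k) i ζ = 0) :
    ∃ η : Module.Dual k C, Module.Dual.transpose (R := k) p η = ζ := by
  have h1 : ζ ∈ (LinearMap.ker p).dualAnnihilator := by
    rw [Submodule.mem_dualAnnihilator]
    intro b hb
    obtain ⟨a, rfl⟩ := hex b hb
    exact LinearMap.congr_fun hζ a
  rw [← LinearMap.range_dualMap_eq_dualAnnihilator_ker] at h1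
  exact h1

end linear

/-! ### exactness of the twisted dual -/

section dualTwist

variable {k Γ : Type u} [Field k] [Group Γ] (χ : Γ →* kˣ) {M M' M'' : Rep.{u} k Γ}

theorem dualTwistMap_injective (g : M' ⟶ M'') (hg : Function.Surjective g.hom) :
    Function.Injective (dualTwistMap χ g).hom :=
  transpose_injective g.hom.toLinearMap hg

theorem dualTwistMap_surjective (f : M ⟶ M') (hf : Function.Injective f.hom) :
    Function.Surjective (dualTwistMap χ f).hom :=
  transpose_surjective f.hom.toLinearMap hf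

theorem dualTwistMap_exact (f : M ⟶ M') (g : M' ⟶ M'')
    (hex : ∀ b : M', g.hom b = 0 → ∃ a : M, f.hom a = b)
    (ζ : M'.dualTwist χ) (hζ : (dualTwistMap χ f).hom ζ = 0) :
    ∃ η : M''.dualTwist χ, (dualTwistMap χ g).hom η = ζ :=
  transpose_exact f.hom.toLinearMap g.hom.toLinearMap hex ζ hζ

/-- `M^*(χ)` is trivialised by a level if `M` and `χ` are. -/
theorem isTrivialisedBy_dualTwist (𝒱 : LevelSys Γ) (hχ : ∃ N ∈ 𝒱.sets, ∀ s ∈ N, χ s = 1)
    (M : Rep.{u} k Γ) (hM : IsTrivialisedBy 𝒱 M) : IsTrivialisedBy 𝒱 (M.dualTwist χ) := by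
  obtain ⟨N₁, hN₁, h₁⟩ := hM
  obtain ⟨N₂, hN₂, h₂⟩ := hχ
  obtain ⟨N, hN, hle⟩ := 𝒱.directed N₁ hN₁ N₂ hN₂
  refine ⟨N, hN, fun s hs => ?_⟩
  refine LinearMap.ext fun ξ => ?_
  rw [Rep.dualTwist_ρ_apply, h₂ s (hle.trans inf_le_right hs),
    h₁ s⁻¹ (N₁.inv_mem (hle.trans inf_le_left hs))]
  refine LinearMap.ext fun m => ?_
  simp

end dualTwist

/-! ### exactness of the local dual side -/

section exact

variable {k Γ : Type u} [Field k] [Group Γ] (𝒱 : LevelSys Γ) (χ : Γ →* kˣ)

/-- the short complex of local dual sides attached to a short complex of representations -/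
noncomputable def lDualSideSC (X : ShortComplex (Rep.{u} k Γ)) :
    ShortComplex (CochainComplex (ModuleCat.{u} k) ℕ) :=
  ShortComplex.mk (lDualSideMap 𝒱 χ X.f) (lDualSideMap 𝒱 χ X.g)
    (by rw [← lDualSideMap_comp, X.zero, lDualSideMap_zero])

variable {𝒱 χ} in
/-- degreewise exactness data for the transposed level cochains -/
theorem lDualSide_degree (X : ShortComplex (Rep.{u} k Γ)) (hX : X.ShortExact)
    (hsm : IsSmooth 𝒱 (X.X₂.dualTwist χ)) (m : ℕ) :
    Function.Injective (Module.Dual.transpose (R := k)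
        ((lvlMap 𝒱 (dualTwistMap χ X.f)).f m).hom) ∧
    Function.Surjective (Module.Dual.transpose (R := k)
        ((lvlMap 𝒱 (dualTwistMap χ X.g)).f m).hom) ∧
    ∀ ζ : Module.Dual k (lvlCochains 𝒱 (X.X₂.dualTwist χ) m),
      Module.Dual.transpose (R := k) ((lvlMap 𝒱 (dualTwistMap χ X.g)).f m).hom ζ = 0 →
      ∃ η : Module.Dual k (lvlCochains 𝒱 (X.X₁.dualTwist χ) m),
        Module.Dual.transpose (R := k) ((lvlMap 𝒱 (dualTwistMap χ X.f)).f m).hom η = ζ := by
  have hinj : Function.Injective X.f.hom := (Rep.mono_iff_injective X.f).mp hX.mono_f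
  have hsurj : Function.Surjective X.g.hom := (Rep.epi_iff_surjective X.g).mp hX.epi_g
  have hex : LinearMap.range X.f.hom.toLinearMap = LinearMap.ker X.g.hom.toLinearMap :=
    (hX.exact.map (forget₂ (Rep k Γ) (ModuleCat k))).moduleCat_range_eq_ker
  have hex' : ∀ b : X.X₂, X.g.hom b = 0 → ∃ a : X.X₁, X.f.hom a = b := by
    intro b hb
    have h1 : b ∈ LinearMap.ker X.g.hom.toLinearMap := hb
    rw [← hex] at h1
    exact h1
  have hgi := dualTwistMap_injective χ X.g hsurj
  have hfs := dualTwistMap_surjective χ X.f hinj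
  have hfe := dualTwistMap_exact χ X.f X.g hex'
  refine ⟨transpose_injective _ (Fermat.Agent.H87.Cft.lvlMap_f_surjective 𝒱 _ hfs hsm m),
    transpose_surjective _ (Fermat.Agent.H87.Cft.lvlMap_f_injective 𝒱 _ hgi m), ?_⟩
  exact transpose_exact _ _
    (fun b hb => Fermat.Agent.H87.Cft.lvlMap_f_exact 𝒱 (dualTwistMap χ X.g)
      (dualTwistMap χ X.f) hgi hfe m b hb)

/-- The local dual side is exact on short exact sequences with smooth dual middle term. -/
theorem lDualSide_shortExact (X : ShortComplex (Rep.{u} k Γ)) (hX : X.ShortExact)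
    (hsm : IsSmooth 𝒱 (X.X₂.dualTwist χ)) : (lDualSideSC 𝒱 χ X).ShortExact := by
  refine HomologicalComplex.shortExact_of_degreewise_shortExact _ fun n => ?_
  match n with
  | 0 =>
    obtain ⟨h1, h2, h3⟩ := lDualSide_degree X hX hsm 2
    refine { exact := ?_, mono_f := ?_, epi_g := ?_ }
    · rw [ShortComplex.moduleCat_exact_iff]
      exact h3
    · rw [ModuleCat.mono_iff_injective]
      exact h1
    · rw [ModuleCat.epi_iff_surjective]
      exact h2
  | 1 =>
    obtain ⟨h1, h2, h3⟩ := lDualSide_degree X hX hsm 1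
    refine { exact := ?_, mono_f := ?_, epi_g := ?_ }
    · rw [ShortComplex.moduleCat_exact_iff]
      exact h3
    · rw [ModuleCat.mono_iff_injective]
      exact h1
    · rw [ModuleCat.epi_iff_surjective]
      exact h2
  | 2 =>
    obtain ⟨h1, h2, h3⟩ := lDualSide_degree X hX hsm 0
    refine { exact := ?_, mono_f := ?_, epi_g := ?_ }
    · rw [ShortComplex.moduleCat_exact_iff]
      exact h3
    · rw [ModuleCat.mono_iff_injective]
      exact h1
    · rw [ModuleCat.epi_iff_surjective]
      exact h2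
  | n + 3 =>
    refine { exact := ?_, mono_f := ?_, epi_g := ?_ }
    · rw [ShortComplex.moduleCat_exact_iff]
      intro x _
      exact ⟨PUnit.unit, rfl⟩
    · rw [ModuleCat.mono_iff_injective]
      intro x y _
      rfl
    · rw [ModuleCat.epi_iff_surjective]
      intro x
      exact ⟨PUnit.unit, rfl⟩

end exact

/-! ### the four-lemma core for `LDualityP` -/

/-- **Generic core of L-EXT**: `LDualityP` is closed under extensions. -/
theorem lDualityP_τ₂ {k : Type u} [CommRing k]
    {S₁ S₂ : ShortComplex (CochainComplex (ModuleCat.{u} k) ℕ)} (φ : S₁ ⟶ S₂)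
    (hS₁ : S₁.ShortExact) (hS₂ : S₂.ShortExact)
    (h₁ : LDualityP φ.τ₁) (h₃ : LDualityP φ.τ₃) : LDualityP φ.τ₂ := by
  obtain ⟨a0, a1, a2⟩ := h₁
  obtain ⟨c0, c1, c2⟩ := h₃
  have r01 : (ComplexShape.up ℕ).Rel 0 1 := rfl
  have r12 : (ComplexShape.up ℕ).Rel 1 2 := rfl
  have a1m : Mono (homologyMap φ.τ₁ 1) := inferInstance
  have a1e : Epi (homologyMap φ.τ₁ 1) := inferInstance
  have c1m : Mono (homologyMap φ.τ₃ 1) := inferInstance
  have c1e : Epi (homologyMap φ.τ₃ 1) := inferInstance
  refine ⟨Fermat.Agent.H50.frExt_epi_homologyMap_τ₂ φ hS₁ hS₂ 0 1 r01 a0 c0 a1m, ?_,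
    Fermat.Agent.H50.frExt_mono_homologyMap_τ₂ φ hS₁ hS₂ 1 2 r12 c1e a2 c2⟩
  have hm := Fermat.Agent.H50.frExt_mono_homologyMap_τ₂ φ hS₁ hS₂ 0 1 r01 c0 a1m c1m
  have he := Fermat.Agent.H50.frExt_epi_homologyMap_τ₂ φ hS₁ hS₂ 1 2 r12 a1e c1e a2
  exact isIso_of_mono_of_epi _

/-! ### L-EXT -/

/-- **[L-EXT]** closure of `{M | λ⁰ epi, λ¹ iso, λ² mono}` under extensions. -/
theorem lExtClosed : LExtClosedStatement.{u} := by
  intro k Γ _ _ 𝒱 χ hχ T hc X hX hgood h1 h3
  have hS₁ : (X.map (lvlFunctor 𝒱)).ShortExact :=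
    Fermat.Agent.H87.Cft.lvlSes 𝒱 X hX hgood.2.isSmooth
  have hS₂ : (lDualSideSC 𝒱 χ X).ShortExact :=
    lDualSide_shortExact 𝒱 χ X hX (isTrivialisedBy_dualTwist χ 𝒱 hχ X.X₂ hgood.2).isSmooth
  let φ : X.map (lvlFunctor 𝒱) ⟶ lDualSideSC 𝒱 χ X :=
    { τ₁ := lthetaHom T X.X₁ (hc _)
      τ₂ := lthetaHom T X.X₂ (hc _)
      τ₃ := lthetaHom T X.X₃ (hc _)
      comm₁₂ := (lthetaHom_naturality T X.f (hc _) (hc _)).symm
      comm₂₃ := (lthetaHom_naturality T X.g (hc _) (hc _)).symm }
  exact lDualityP_τ₂ φ hS₁ hS₂ h1 h3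

end Fermat.Agent.H47.Cft
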