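/-
P-CFT row 555 (helper47), part 1: functoriality of the LOCAL dual side and naturality of the
local duality morphism `lthetaHom`.

* `dualCx2Map g : dualCx2 K' ⟶ dualCx2 K` (transpose; contravariant), `dualCx2Map_id/comp/zero`.
* `lDualSideMap 𝒱 χ f : dualCx2 (C(M^*(χ))) ⟶ dualCx2 (C(M'^*(χ)))` (covariant in `M`).
* `lthetaHom_naturality : lvlMap 𝒱 f ≫ lthetaHom T M' _ = lthetaHom T M _ ≫ lDualSideMap 𝒱 χ f`.
-/
import Fermat.Agent.H13.Cft.Local
import Fermat.Agent.H53.Cft.FrNatDefs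

set_option autoImplicit false

universe u

open CategoryTheory groupCohomology

namespace Fermat.Agent.H47.Cft

open Fermat.Agent.H13.Cft Fermat.Agent.H53

/-! ### functoriality of `dualCx2` -/

section dualCx2

variable {k : Type u} [CommRing k]
variable {K K' K'' : CochainComplex (ModuleCat.{u} k) ℕ}

/-- Components of the transpose map of dual complexes (top degree `2`). -/
noncomputable def dualCx2MapF (g : K ⟶ K') : ∀ n, dualX2 K' n ⟶ dualX2 K n
  | 0 => ModuleCat.ofHom (Module.Dual.transpose (g.f 2).hom)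
  | 1 => ModuleCat.ofHom (Module.Dual.transpose (g.f 1).hom)
  | 2 => ModuleCat.ofHom (Module.Dual.transpose (g.f 0).hom)
  | _ + 3 => 0

lemma dualCx2MapF_comm (g : K ⟶ K') (n : ℕ) :
    dualCx2MapF g n ≫ dualD2 K n = dualD2 K' n ≫ dualCx2MapF g (n + 1) := by
  have hg : ∀ (i : ℕ) (a : K.X i),
      (K'.d i (i + 1)).hom ((g.f i).hom a) = (g.f (i + 1)).hom ((K.d i (i + 1)).hom a) := by
    intro i a
    exact LinearMap.congr_fun (congrArg ModuleCat.Hom.hom (g.comm i (i + 1))) a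
  match n with
  | 0 =>
    have h0 : ∀ ξ : Module.Dual k (K'.X 2), (dualD2 K 0).hom ((dualCx2MapF g 0).hom ξ)
        = (dualCx2MapF g 1).hom ((dualD2 K' 0).hom ξ) := by
      intro ξ
      refine LinearMap.ext fun a => ?_
      show ξ ((g.f 2).hom ((K.d 1 2).hom a)) = ξ ((K'.d 1 2).hom ((g.f 1).hom a))
      rw [hg 1 a]
    ext ξ : 2
    exact h0 ξ
  | 1 =>
    have h1 : ∀ ξ : Module.Dual k (K'.X 1), (dualD2 K 1).hom ((dualCx2MapF g 1).hom ξ)
        = (dualCx2MapF g 2).hom ((dualD2 K' 1).hom ξ) := by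
      intro ξ
      refine LinearMap.ext fun a => ?_
      show ξ ((g.f 1).hom ((K.d 0 1).hom a)) = ξ ((K'.d 0 1).hom ((g.f 0).hom a))
      rw [hg 0 a]
    ext ξ : 2
    exact h1 ξ
  | 2 =>
    show dualCx2MapF g 2 ≫ (0 : dualX2 K 2 ⟶ dualX2 K 3) = (0 : dualX2 K' 2 ⟶ dualX2 K' 3) ≫ _
    rw [Limits.comp_zero, Limits.zero_comp]
  | n + 3 =>
    show (0 : dualX2 K' (n + 3) ⟶ dualX2 K (n + 3)) ≫ _
      = _ ≫ (0 : dualX2 K' (n + 4) ⟶ dualX2 K (n + 4))
    rw [Limits.comp_zero, Limits.zero_comp]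

/-- The transpose of a morphism of complexes, `dualCx2 K' ⟶ dualCx2 K` (contravariant). -/
noncomputable def dualCx2Map (g : K ⟶ K') : dualCx2 K' ⟶ dualCx2 K where
  f n := dualCx2MapF g n
  comm' i j (hij : _ = _) := by
    subst hij
    simp only [dualCx2, CochainComplex.of_d]
    exact dualCx2MapF_comm g i

@[simp] lemma dualCx2Map_f (g : K ⟶ K') (n : ℕ) : (dualCx2Map g).f n = dualCx2MapF g n := rfl

lemma dualCx2Map_f_zero_apply (g : K ⟶ K') (ξ : Module.Dual k (K'.X 2)) :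
    ((dualCx2Map g).f 0).hom ξ = (ξ ∘ₗ (g.f 2).hom : Module.Dual k (K.X 2)) := rfl

lemma dualCx2Map_f_one_apply (g : K ⟶ K') (ξ : Module.Dual k (K'.X 1)) :
    ((dualCx2Map g).f 1).hom ξ = (ξ ∘ₗ (g.f 1).hom : Module.Dual k (K.X 1)) := rfl

lemma dualCx2Map_f_two_apply (g : K ⟶ K') (ξ : Module.Dual k (K'.X 0)) :
    ((dualCx2Map g).f 2).hom ξ = (ξ ∘ₗ (g.f 0).hom : Module.Dual k (K.X 0)) := rfl

lemma dualCx2Map_id (K : CochainComplex (ModuleCat.{u} k) ℕ) :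
    dualCx2Map (𝟙 K) = 𝟙 (dualCx2 K) := by
  ext n : 1
  match n with
  | 0 => ext ξ : 2; rfl
  | 1 => ext ξ : 2; rfl
  | 2 => ext ξ : 2; rfl
  | n + 3 => ext ξ : 2; rfl

lemma dualCx2Map_comp (g : K ⟶ K') (g' : K' ⟶ K'') :
    dualCx2Map (g ≫ g') = dualCx2Map g' ≫ dualCx2Map g := by
  ext n : 1
  match n with
  | 0 => ext ξ : 2; rfl
  | 1 => ext ξ : 2; rfl
  | 2 => ext ξ : 2; rfl
  | n + 3 => ext ξ : 2; rfl

lemma dualCx2Map_zero (K K' : CochainComplex (ModuleCat.{u} k) ℕ) :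
    dualCx2Map (0 : K ⟶ K') = 0 := by
  ext n : 1
  match n with
  | 0 =>
    have h : ∀ ξ : Module.Dual k (K'.X 2),
        (dualCx2MapF (0 : K ⟶ K') 0).hom ξ = (0 : Module.Dual k (K.X 2)) :=
      fun ξ => LinearMap.ext fun a => map_zero ξ
    ext ξ : 2
    exact h ξ
  | 1 =>
    have h : ∀ ξ : Module.Dual k (K'.X 1),
        (dualCx2MapF (0 : K ⟶ K') 1).hom ξ = (0 : Module.Dual k (K.X 1)) :=
      fun ξ => LinearMap.ext fun a => map_zero ξ
    ext ξ : 2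
    exact h ξ
  | 2 =>
    have h : ∀ ξ : Module.Dual k (K'.X 0),
        (dualCx2MapF (0 : K ⟶ K') 2).hom ξ = (0 : Module.Dual k (K.X 0)) :=
      fun ξ => LinearMap.ext fun a => map_zero ξ
    ext ξ : 2
    exact h ξ
  | n + 3 => rfl

end dualCx2

/-! ### The local dual side `M ↦ dualCx2 (C(Γ, M^*(χ)))` -/

section lDualSide

variable {k Γ : Type u} [CommRing k] [Group Γ] (𝒱 : LevelSys Γ) (χ : Γ →* kˣ)
variable {M M' M'' : Rep.{u} k Γ}

/-- The map on the local dual side induced by a morphism of coefficients (covariant). -/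
noncomputable def lDualSideMap (f : M ⟶ M') :
    dualCx2 (lvlComplex 𝒱 (M.dualTwist χ)) ⟶ dualCx2 (lvlComplex 𝒱 (M'.dualTwist χ)) :=
  dualCx2Map (lvlMap 𝒱 (dualTwistMap χ f))

lemma lDualSideMap_id (M : Rep.{u} k Γ) : lDualSideMap 𝒱 χ (𝟙 M) = 𝟙 _ := by
  rw [lDualSideMap, dualTwistMap_id, lvlMap_id, dualCx2Map_id]

lemma lDualSideMap_comp (f : M ⟶ M') (g : M' ⟶ M'') :
    lDualSideMap 𝒱 χ (f ≫ g) = lDualSideMap 𝒱 χ f ≫ lDualSideMap 𝒱 χ g := by
  rw [lDualSideMap, dualTwistMap_comp, lvlMap_comp, dualCx2Map_comp]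
  rfl

lemma lDualSideMap_zero (M M' : Rep.{u} k Γ) : lDualSideMap 𝒱 χ (0 : M ⟶ M') = 0 := by
  rw [lDualSideMap, dualTwistMap_zero, lvlMap_zero, dualCx2Map_zero]

/-- The local dual side as a (covariant) functor of the coefficients. -/
noncomputable def lDualSideFunctor : Rep.{u} k Γ ⥤ CochainComplex (ModuleCat.{u} k) ℕ where
  obj M := dualCx2 (lvlComplex 𝒱 (M.dualTwist χ))
  map f := lDualSideMap 𝒱 χ f
  map_id M := lDualSideMap_id 𝒱 χ M
  map_comp f g := lDualSideMap_comp 𝒱 χ f g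

@[simp] lemma lDualSideFunctor_obj (M : Rep.{u} k Γ) :
    (lDualSideFunctor 𝒱 χ).obj M = dualCx2 (lvlComplex 𝒱 (M.dualTwist χ)) := rfl

@[simp] lemma lDualSideFunctor_map (f : M ⟶ M') :
    (lDualSideFunctor 𝒱 χ).map f = lDualSideMap 𝒱 χ f := rfl

instance lDualSideFunctor_preservesZeroMorphisms :
    (lDualSideFunctor 𝒱 χ).PreservesZeroMorphisms where
  map_zero M M' := lDualSideMap_zero 𝒱 χ M M'

end lDualSide

/-! ### Naturality of the local duality morphism -/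

section naturality

variable {k Γ : Type u} [CommRing k] [Group Γ] {𝒱 : LevelSys Γ} {χ : Γ →* kˣ}
  (T : LTrace 𝒱 χ) {M M' : Rep.{u} k Γ} (f : M ⟶ M')

/-- the cup product is natural: `(f ∘ x) ∪ y = x ∪ (y ∘ f)` for the evaluation pairings. -/
lemma cupLvl_evPairing_natural (i j : ℕ) (x : lvlCochains 𝒱 M i)
    (y : lvlCochains 𝒱 (M'.dualTwist χ) j) :
    cupLvl 𝒱 (evPairing χ M') i j (((lvlMap 𝒱 f).f i).hom x) y
      = cupLvl 𝒱 (evPairing χ M) i j x (((lvlMap 𝒱 (dualTwistMap χ f)).f j).hom y) := by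
  apply Subtype.ext
  funext g
  rw [cupLvl_apply, cupLvl_apply]
  show (M'.dualTwist χ).ρ (headProd (i := i) (j := j) g) (y.1 fun t => g (Fin.natAdd i t))
      (f.hom (x.1 fun t => g (Fin.castAdd j t)))
    = (M.dualTwist χ).ρ (headProd (i := i) (j := j) g)
        ((dualTwistMap χ f).hom (y.1 fun t => g (Fin.natAdd i t)))
        (x.1 fun t => g (Fin.castAdd j t))
  rw [← Rep.hom_comm_apply (dualTwistMap χ f)]
  rfl

lemma lthetaF_naturality (n : ℕ) :
    (lvlMap 𝒱 f).f n ≫ lthetaF T M' n = lthetaF T M n ≫ (lDualSideMap 𝒱 χ f).f n := by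
  match n with
  | 0 =>
    have h : ∀ x : lvlCochains 𝒱 M 0, (lthetaF T M' 0).hom (((lvlMap 𝒱 f).f 0).hom x)
        = ((lDualSideMap 𝒱 χ f).f 0).hom ((lthetaF T M 0).hom x) := by
      intro x
      refine LinearMap.ext fun y => ?_
      show T.t (cupLvl 𝒱 (evPairing χ M') 0 2 (((lvlMap 𝒱 f).f 0).hom x) y)
        = T.t (cupLvl 𝒱 (evPairing χ M) 0 2 x (((lvlMap 𝒱 (dualTwistMap χ f)).f 2).hom y))
      rw [cupLvl_evPairing_natural]
    ext x : 2
    exact h x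
  | 1 =>
    have h : ∀ x : lvlCochains 𝒱 M 1, (lthetaF T M' 1).hom (((lvlMap 𝒱 f).f 1).hom x)
        = ((lDualSideMap 𝒱 χ f).f 1).hom ((lthetaF T M 1).hom x) := by
      intro x
      refine LinearMap.ext fun y => ?_
      show - T.t (cupLvl 𝒱 (evPairing χ M') 1 1 (((lvlMap 𝒱 f).f 1).hom x) y)
        = - T.t (cupLvl 𝒱 (evPairing χ M) 1 1 x (((lvlMap 𝒱 (dualTwistMap χ f)).f 1).hom y))
      rw [cupLvl_evPairing_natural]
    ext x : 2
    exact h x
  | 2 =>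
    have h : ∀ x : lvlCochains 𝒱 M 2, (lthetaF T M' 2).hom (((lvlMap 𝒱 f).f 2).hom x)
        = ((lDualSideMap 𝒱 χ f).f 2).hom ((lthetaF T M 2).hom x) := by
      intro x
      refine LinearMap.ext fun y => ?_
      show - T.t (cupLvl 𝒱 (evPairing χ M') 2 0 (((lvlMap 𝒱 f).f 2).hom x) y)
        = - T.t (cupLvl 𝒱 (evPairing χ M) 2 0 x (((lvlMap 𝒱 (dualTwistMap χ f)).f 0).hom y))
      rw [cupLvl_evPairing_natural]
    ext x : 2
    exact h x
  | n + 3 =>
    show _ ≫ (0 : (lvlComplex 𝒱 M').X (n + 3) ⟶ _) = (0 : (lvlComplex 𝒱 M).X (n + 3) ⟶ _) ≫ _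
    rw [Limits.comp_zero, Limits.zero_comp]

/-- **Naturality of `λ`.** -/
theorem lthetaHom_naturality (h : LThetaComm T M) (h' : LThetaComm T M') :
    lvlMap 𝒱 f ≫ lthetaHom T M' h' = lthetaHom T M h ≫ lDualSideMap 𝒱 χ f := by
  ext n : 1
  exact lthetaF_naturality T f n

end naturality

end Fermat.Agent.H47.Cft
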