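/-
P-CFT row 555 (helper47), part 2: **[L-RETR]** `LRetractClosedStatement`.
-/
import Fermat.Agent.H47.Cft.LocalNat

set_option autoImplicit false
set_option linter.style.haveILetI false

universe u

open CategoryTheory groupCohomology

namespace Fermat.Agent.H47.Cft

open Fermat.Agent.H13.Cft Fermat.Agent.H53 HomologicalComplex

section generic

variable {C ι : Type*} [Category C] [Abelian C] {c : ComplexShape ι}
  {K L K' L' : HomologicalComplex C c} (f : K ⟶ L) (f' : K' ⟶ L')
  (a : K ⟶ K') (b : K' ⟶ K) (cc : L ⟶ L') (d : L' ⟶ L)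

/-- a retract of a morphism which is mono on `H_n` is mono on `H_n` -/
theorem retr_mono_homologyMap (hab : a ≫ b = 𝟙 K) (h1 : a ≫ f' = f ≫ cc) (n : ι)
    (hf' : Mono (homologyMap f' n)) : Mono (homologyMap f n) := by
  have hsplit : homologyMap a n ≫ homologyMap b n = 𝟙 _ := by
    rw [← homologyMap_comp, hab, homologyMap_id]
  haveI : Mono (homologyMap a n) := mono_of_mono_fac hsplit
  have hsq : homologyMap a n ≫ homologyMap f' n = homologyMap f n ≫ homologyMap cc n := by
    rw [← homologyMap_comp, ← homologyMap_comp, h1]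
  haveI : Mono (homologyMap f n ≫ homologyMap cc n) := by
    rw [← hsq]
    exact mono_comp _ _
  exact mono_of_mono (homologyMap f n) (homologyMap cc n)

/-- a retract of a morphism which is epi on `H_n` is epi on `H_n` -/
theorem retr_epi_homologyMap (hcd : cc ≫ d = 𝟙 L) (h2 : b ≫ f = f' ≫ d) (n : ι)
    (hf' : Epi (homologyMap f' n)) : Epi (homologyMap f n) := by
  have hsplit : homologyMap cc n ≫ homologyMap d n = 𝟙 _ := by
    rw [← homologyMap_comp, hcd, homologyMap_id]
  haveI : Epi (homologyMap d n) := epi_of_epi_fac hsplit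
  have hsq : homologyMap b n ≫ homologyMap f n = homologyMap f' n ≫ homologyMap d n := by
    rw [← homologyMap_comp, ← homologyMap_comp, h2]
  haveI : Epi (homologyMap b n ≫ homologyMap f n) := by
    rw [hsq]
    exact epi_comp _ _
  exact epi_of_epi (homologyMap b n) (homologyMap f n)

end generic

/-- **Generic core of L-RETR**: `LDualityP` is stable under retracts. -/
theorem lDualityP_of_retract {k : Type u} [CommRing k]
    {K L K' L' : CochainComplex (ModuleCat.{u} k) ℕ} (f : K ⟶ L) (f' : K' ⟶ L')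
    (a : K ⟶ K') (b : K' ⟶ K) (cc : L ⟶ L') (d : L' ⟶ L)
    (hab : a ≫ b = 𝟙 K) (hcd : cc ≫ d = 𝟙 L) (h1 : a ≫ f' = f ≫ cc) (h2 : b ≫ f = f' ≫ d)
    (h : LDualityP f') : LDualityP f := by
  obtain ⟨h0, h1', h2'⟩ := h
  refine ⟨retr_epi_homologyMap f f' b cc d hcd h2 0 h0, ?_,
    retr_mono_homologyMap f f' a b cc hab h1 2 h2'⟩
  haveI := retr_mono_homologyMap f f' a b cc hab h1 1 inferInstance
  haveI := retr_epi_homologyMap f f' b cc d hcd h2 1 inferInstance
  exact isIso_of_mono_of_epi _

/-- **[L-RETR]** closure of `{M | λ⁰ epi, λ¹ iso, λ² mono}` under retracts. -/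
theorem lRetractClosed : LRetractClosedStatement.{u} := by
  intro k Γ _ _ 𝒱 χ T hc M M' i r hir hM'
  refine lDualityP_of_retract (lthetaHom T M (hc M)) (lthetaHom T M' (hc M'))
    (lvlMap 𝒱 i) (lvlMap 𝒱 r) (lDualSideMap 𝒱 χ i) (lDualSideMap 𝒱 χ r) ?_ ?_ ?_ ?_ hM'
  · rw [← lvlMap_comp, hir, lvlMap_id]
  · rw [← lDualSideMap_comp, hir, lDualSideMap_id]
  · exact lthetaHom_naturality T i (hc M) (hc M')
  · exact lthetaHom_naturality T r (hc M') (hc M)

end Fermat.Agent.H47.Cft
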