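/-
P-CFT row 628 (helper47): **[LOC-KUM]** Kummer theory for `Gal(ℚ̄/E)`, `E` arbitrary containing
`ζ_p` (`KummerEStatement`), and finiteness of `H¹` for local `E`
(`PowFiniteStatement → FieldH1FiniteStatement`).
-/
import Fermat.Agent.H78.CFT.LocalRows
import Fermat.Agent.H99.Cft.Hilbert90L
import Fermat.Agent.H54.Cft.KummerChar

set_option autoImplicit false
set_option linter.style.haveILetI false

namespace Fermat.Agent.H47.Cft

open Fermat.Agent.H13.Cft Fermat.Agent.H78.CFT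

/-- extension by zero of a function on `G_E` to `G_ℚ` -/
noncomputable def extZero {p : ℕ} (E : IntermediateField ℚ Qb) (χ : E.fixingSubgroup → ZMod p) :
    (Qb ≃ₐ[ℚ] Qb) → ZMod p := by
  classical
  exact fun σ => if h : σ ∈ E.fixingSubgroup then χ ⟨σ, h⟩ else 0

theorem extZero_apply {p : ℕ} (E : IntermediateField ℚ Qb) (χ : E.fixingSubgroup → ZMod p)
    (g : E.fixingSubgroup) : extZero E χ (g : Qb ≃ₐ[ℚ] Qb) = χ g := by
  unfold extZero
  rw [dif_pos g.2]

/-- the Kummer relation in `ℚ̄ˣ` versus `ℚ̄` -/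
theorem isKummerGenE_iff {p : ℕ} (E : IntermediateField ℚ Qb) (ζ : Qbˣ)
    (χ : E.fixingSubgroup → ZMod p) (α : Qbˣ) :
    IsKummerGenE E ζ χ α ↔
      ∀ g : E.fixingSubgroup, (g : Qb ≃ₐ[ℚ] Qb) (α : Qb) = (ζ : Qb) ^ (χ g).val * (α : Qb) := by
  constructor
  · intro h g
    have := congrArg Units.val (h g)
    simpa using this
  · intro h g
    apply Units.ext
    simpa using h g

theorem isKummerGenE_iff_h54 {p : ℕ} (E : IntermediateField ℚ Qb) (ζ : Qbˣ)
    (χ : E.fixingSubgroup → ZMod p) (α : Qbˣ) :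
    IsKummerGenE E ζ χ α ↔
      Fermat.Agent.H54.Cft.IsKummerGen E (ζ : Qb) (extZero E χ) (α : Qb) := by
  rw [isKummerGenE_iff]
  constructor
  · intro h
    refine ⟨α.ne_zero, fun τ hτ => ?_⟩
    have := h ⟨τ, hτ⟩
    rw [← extZero_apply E χ ⟨τ, hτ⟩] at this
    exact this
  · intro h g
    have := h.2 g.1 g.2
    rw [extZero_apply] at this
    exact this

/-- a level hom vanishes on its level -/
theorem lvlHom_zero_of_mem {G : Type} [Group G] {p : ℕ}
    {χ : G → ZMod p} (hχ : (∀ g h, χ (g * h) = χ g + χ h))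
    {N : Subgroup G} (hN : ∀ g, ∀ n ∈ N, χ (g * n) = χ g) : ∀ n ∈ N, χ n = 0 := by
  intro n hn
  have h1 : χ 1 = 0 := by
    have := hχ 1 1
    rw [mul_one] at this
    exact left_eq_add.mp this
  have := hN 1 n hn
  rwa [one_mul, h1] at this

/-- **[LOC-KUM]** -/
theorem kummerE : KummerEStatement := by
  intro p _ E ζ hζ hζE
  have hp : p.Prime := Fact.out
  haveI : NeZero p := ⟨hp.ne_zero⟩
  refine ⟨?_, ?_, ?_⟩
  · -- (i) Hilbert 90
    rintro χ ⟨hadd, N, hN, hNχ⟩
    obtain ⟨hNn, hNf, F, hF, hFN⟩ := hN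
    have hb : Fermat.Agent.H54.Cft.IsAddCharOn E (extZero E χ) := by
      intro σ hσ τ hτ
      have := hadd ⟨σ, hσ⟩ ⟨τ, hτ⟩
      rw [← extZero_apply E χ ⟨σ, hσ⟩, ← extZero_apply E χ ⟨τ, hτ⟩,
        ← extZero_apply E χ (⟨σ, hσ⟩ * ⟨τ, hτ⟩)] at this
      exact this
    have hlev : ∃ F : IntermediateField ℚ Fermat.Agent.H54.Cft.Qbar, FiniteDimensional ℚ F ∧
        ∀ s ∈ F.fixingSubgroup, s ∈ E.fixingSubgroup → extZero E χ s = 0 := by
      refine ⟨F, hF, fun s hsF hsE => ?_⟩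
      have hmem : (⟨s, hsE⟩ : E.fixingSubgroup) ∈ N := hFN hsF
      rw [← lvlHom_zero_of_mem hadd hNχ _ hmem]
      exact extZero_apply E χ ⟨s, hsE⟩
    obtain ⟨α, hα⟩ := Fermat.Agent.H99.Cft.hilbert90L p E (ζ : Qb) hζ hζE (extZero E χ) hb hlev
    refine ⟨Units.mk0 α hα.1, ?_⟩
    rw [isKummerGenE_iff_h54]
    exact hα
  · -- (ii) the Kummer character of an element
    intro α hαE
    obtain ⟨b, hbadd, hbgen, hbstab⟩ :=
      Fermat.Agent.H54.Cft.kummerCharExists p E (ζ : Qb) hζ hζE (α : Qb) α.ne_zero hαE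
    let χ : E.fixingSubgroup → ZMod p := fun g => b g.1
    have hχadd : ∀ g h : E.fixingSubgroup, χ (g * h) = χ g + χ h := fun g h =>
      hbadd g.1 g.2 h.1 h.2
    -- the kernel of `χ`
    let φ : E.fixingSubgroup →* Multiplicative (ZMod p) :=
      { toFun := fun g => Multiplicative.ofAdd (χ g)
        map_one' := by
          have := hχadd 1 1
          rw [mul_one] at this
          have h1 : χ 1 = 0 := left_eq_add.mp this
          show Multiplicative.ofAdd (χ 1) = 1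
          rw [h1]
          rfl
        map_mul' := fun g h => by
          show Multiplicative.ofAdd (χ (g * h)) = _
          rw [hχadd g h]
          rfl }
    have hker : ∀ n, n ∈ φ.ker ↔ χ n = 0 := by
      intro n
      rw [MonoidHom.mem_ker]
      constructor
      · intro h
        exact Multiplicative.ofAdd.injective h
      · intro h
        show Multiplicative.ofAdd (χ n) = 1
        rw [h]
        rfl
    refine ⟨χ, ⟨hχadd, φ.ker, ⟨inferInstance, inferInstance,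
      IntermediateField.adjoin ℚ {(α : Qb)}, ?_, ?_⟩, ?_⟩, ?_⟩
    · haveI : Algebra.IsAlgebraic ℚ Qb := by
        haveI := Fermat.Agent.H54.Cft.isGalois_Qbar_kd
        infer_instance
      exact IntermediateField.adjoin.finiteDimensional
        (Algebra.IsIntegral.isIntegral (R := ℚ) (α : Qb))
    · intro s hs
      rw [Subgroup.mem_comap] at hs
      rw [hker]
      refine hbstab s.1 s.2 ?_
      exact (IntermediateField.mem_fixingSubgroup_iff _ _).mp hs _
        (IntermediateField.mem_adjoin_simple_self ℚ (α : Qb))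
    · intro g n hn
      rw [hχadd, (hker n).mp hn, add_zero]
    · rw [isKummerGenE_iff]
      intro g
      exact hbgen.2 g.1 g.2
  · -- (iii)
    intro χ α hα
    have hα' := (isKummerGenE_iff_h54 E ζ χ α).mp hα
    refine ⟨Fermat.Agent.H54.Cft.kummerGen_pow_mem hζ hα', ?_⟩
    rw [isKummerGenE_iff] at hα
    constructor
    · intro hχ
      haveI := Fermat.Agent.H54.Cft.isGalois_Qbar_kd
      have h : (α : Qb) ∈ IntermediateField.fixedField E.fixingSubgroup := by
        rw [IntermediateField.mem_fixedField_iff]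
        intro g hg
        have := hα ⟨g, hg⟩
        rw [hχ] at this
        simpa using this
      rwa [InfiniteGalois.fixedField_fixingSubgroup E] at h
    · intro hαE
      funext g
      apply Fermat.Agent.H54.Cft.zeta_pow_val_eq hζ
      have h1 := hα g
      have h2 : (g : Qb ≃ₐ[ℚ] Qb) (α : Qb) = (α : Qb) :=
        (IntermediateField.mem_fixingSubgroup_iff E g.1).mp g.2 _ hαE
      rw [h2] at h1
      show (ζ : Qb) ^ (χ g).val = (ζ : Qb) ^ (0 : ZMod p).val
      rw [ZMod.val_zero, pow_zero]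
      have h3 : (ζ : Qb) ^ (χ g).val * (α : Qb) = 1 * (α : Qb) := by rw [← h1, one_mul]
      exact mul_right_cancel₀ α.ne_zero h3

/-- two Kummer generators with the same `p`-th power have the same character -/
theorem kummerE_char_eq_of_pow_eq {p : ℕ} [Fact p.Prime] (E : IntermediateField ℚ Qb) (ζ : Qbˣ)
    (hζ : IsPrimitiveRoot (ζ : Qb) p) (hζE : (ζ : Qb) ∈ E)
    {χ χ' : E.fixingSubgroup → ZMod p} {β β' : Qbˣ} (hβ : IsKummerGenE E ζ χ β)
    (hβ' : IsKummerGenE E ζ χ' β') (h : (β : Qb) ^ p = (β' : Qb) ^ p) : χ = χ' := by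
  have hp : p.Prime := Fact.out
  rw [isKummerGenE_iff] at hβ hβ'
  funext g
  apply Fermat.Agent.H54.Cft.zeta_pow_val_eq hζ
  -- `β' = ω β` with `ω ^ p = 1`, `ω ∈ E`
  have hω : ((β' : Qb) / (β : Qb)) ^ p = 1 := by
    rw [div_pow, ← h, div_self (pow_ne_zero p β.ne_zero)]
  obtain ⟨i, -, hi⟩ := hζ.eq_pow_of_pow_eq_one hω
  have hωE : (β' : Qb) / (β : Qb) ∈ E := by
    rw [← hi]
    exact pow_mem hζE i
  have hfix : (g : Qb ≃ₐ[ℚ] Qb) ((β' : Qb) / (β : Qb)) = (β' : Qb) / (β : Qb) :=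
    (IntermediateField.mem_fixingSubgroup_iff E g.1).mp g.2 _ hωE
  rw [map_div₀, hβ g, hβ' g] at hfix
  have hβ0 : (β : Qb) ≠ 0 := β.ne_zero
  have hβ'0 : (β' : Qb) ≠ 0 := β'.ne_zero
  have hζ0 : (ζ : Qb) ^ (χ g).val ≠ 0 := pow_ne_zero _ ζ.ne_zero
  rw [div_eq_div_iff (mul_ne_zero hζ0 hβ0) hβ0] at hfix
  have h2 : (ζ : Qb) ^ (χ' g).val * ((β : Qb) * (β' : Qb))
      = (ζ : Qb) ^ (χ g).val * ((β : Qb) * (β' : Qb)) := by
    linear_combination hfix
  exact (mul_right_cancel₀ (mul_ne_zero hβ0 hβ'0) h2).symm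

/-- **finiteness of `H¹`** for local `E`, from Kummer theory and `Eˣ/(Eˣ)^p` finite. -/
theorem fieldH1Finite_of (hpow : PowFiniteStatement) (hkum : KummerEStatement) :
    FieldH1FiniteStatement := by
  intro p _ _ q _ E hE hζ
  classical
  obtain ⟨ζ₀, hζ₀E, hζ₀⟩ := hζ
  have hp : p.Prime := Fact.out
  let ζ : Qbˣ := Units.mk0 ζ₀ (hζ₀.ne_zero hp.ne_zero)
  have hζ : IsPrimitiveRoot (ζ : Qb) p := hζ₀
  have hζE : (ζ : Qb) ∈ E := hζ₀E
  obtain ⟨h1, -, h3⟩ := hkum p E ζ hζ hζE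
  obtain ⟨R, hR⟩ := hpow p q E hE
  -- for every level hom choose a Kummer generator whose `p`-th power is in `R`
  have key : ∀ χ : E.fixingSubgroup → ZMod p, IsLvlHom (lvlE E) χ →
      ∃ r ∈ R, ∃ β : Qbˣ, IsKummerGenE E ζ χ β ∧ (β : Qb) ^ p = ((r : Eˣ) : E) := by
    intro χ hχ
    obtain ⟨α, hα⟩ := h1 χ hχ
    obtain ⟨hαE, -⟩ := h3 χ α hα
    have ha0 : (⟨(α : Qb) ^ p, hαE⟩ : E) ≠ 0 := by
      intro h
      have := congrArg (fun x : E => (x : Qb)) h
      exact pow_ne_zero p α.ne_zero this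
    obtain ⟨r, hr, b, hab⟩ := hR (Units.mk0 ⟨(α : Qb) ^ p, hαE⟩ ha0)
    have hab' : (α : Qb) ^ p = ((r : Eˣ) : E) * (((b : Eˣ) : E) : Qb) ^ p := by
      have := congrArg (fun x : Eˣ => (((x : E)) : Qb)) hab
      simpa using this
    have hb0 : (((b : Eˣ) : E) : Qb) ≠ 0 := by
      intro h
      apply b.ne_zero
      exact Subtype.ext h
    refine ⟨r, hr, α / Units.mk0 _ hb0, ?_, ?_⟩
    · rw [isKummerGenE_iff] at hα ⊢
      intro g
      have hfix : (g : Qb ≃ₐ[ℚ] Qb) (((b : Eˣ) : E) : Qb) = (((b : Eˣ) : E) : Qb) :=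
        (IntermediateField.mem_fixingSubgroup_iff E g.1).mp g.2 _ (b : E).2
      simp only [Units.val_div_eq_div_val, Units.val_mk0, map_div₀, hα g, hfix]
      rw [mul_div_assoc]
    · simp only [Units.val_div_eq_div_val, Units.val_mk0, div_pow]
      rw [hab']
      field_simp
  choose! rr hrr ββ hββ hββp using key
  refine Set.Finite.of_injOn (f := fun χ => rr χ) (t := (R : Set Eˣ)) ?_ ?_ R.finite_toSet
  · intro χ hχ
    exact hrr χ hχ
  · intro χ hχ χ' hχ' hrr'
    have hrr'' : rr χ = rr χ' := hrr'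
    refine kummerE_char_eq_of_pow_eq E ζ hζ hζE (hββ χ hχ) (hββ χ' hχ') ?_
    rw [hββp χ hχ, hββp χ' hχ', hrr'']

end Fermat.Agent.H47.Cft
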