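/-
P-CFT row 982 GC-LOC-U (helper47): the local count in U-language.

  `localCountU : Fermat.Agent.H76.Cft.LocalCountUStatement`

For `U ≤ G_ℚ` open with trivial mod `p` cyclotomic character, a place `v ∈ S` and `g ∈ G_ℚ`, the
number of level homomorphisms `D_{v,g} → ZMod p` of the decomposition subgroup
`D_{v,g} = {γ ∈ Γ_v | g loc(γ) g⁻¹ ∈ U}` is `p ^ (2 + [Γ_v : D_{v,g}])` for `v = p` and `p ^ 2`
for `v ≠ p`.

* `relfinrank_fixedField_map_eq_index` : `[ℚ̄^{loc V} : K_v] = [Γ_v : V]`;
* `localCount_of_open` : the count for an open subgroup `V ≤ Γ_q` on which the cyclotomic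
  character is trivial (from helper97's `fieldH1Card`, transported as in helper81's
  `fieldToLocal`);
* `localCountU`.
-/
import Fermat.Agent.H76.Cft.FieldDictInterfaces
import Fermat.Agent.H97.Cft.FieldH1Card
import Fermat.Agent.H81.Local.B5
import Fermat.Agent.H85.Cft.LcShap

set_option autoImplicit false

open IntermediateField

namespace Fermat.Agent.H47.Cft

open Fermat.Agent.H13.Cft Fermat.Agent.H78.CFT ExtCitation Fermat.Agent.H81.Local
open Fermat.Agent.H97.Shap

/-- `[ℚ̄^W : K_v] = [Γ_v : V]` for `W = loc(V)` closed. -/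
theorem relfinrank_fixedField_map_eq_index (q : ℕ) [Fact q.Prime]
    (V : Subgroup (PadicAlgCl q ≃ₐ[ℚ_[q]] PadicAlgCl q))
    (hfix : (IntermediateField.fixedField (V.map (localGaloisToGlobal q))).fixingSubgroup
      = V.map (localGaloisToGlobal q)) :
    IntermediateField.relfinrank (localField q)
      (IntermediateField.fixedField (V.map (localGaloisToGlobal q))) = V.index := by
  have hgal := Fermat.Agent.H81.isGalois_rat_Qbar
  have hrange : (localGaloisToGlobal q).range = Dq q := range_localGaloisToGlobal q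
  have hinj : Function.Injective (localGaloisToGlobal q) := localGaloisToGlobal_injective q
  have hWD : V.map (localGaloisToGlobal q) ≤ Dq q := by
    rw [← hrange]
    rintro _ ⟨v, _, rfl⟩
    exact ⟨v, rfl⟩
  have hKE : localField q ≤ IntermediateField.fixedField (V.map (localGaloisToGlobal q)) :=
    IntermediateField.fixedField_antitone hWD
  rw [IntermediateField.relfinrank_eq_finrank_of_le hKE]
  have : IsGalois (localField q) (AlgebraicClosure ℚ) := inferInstance
  rw [IntermediateField.finrank_eq_fixingSubgroup_index]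
  have hmemK : ∀ γ, localGaloisToGlobal q γ ∈ (localField q).fixingSubgroup := by
    intro γ
    rw [fixingSubgroup_localField, ← hrange]
    exact ⟨γ, rfl⟩
  set φ : (PadicAlgCl q ≃ₐ[ℚ_[q]] PadicAlgCl q) →*
      (AlgebraicClosure ℚ ≃ₐ[localField q] AlgebraicClosure ℚ) :=
    (IntermediateField.fixingSubgroupEquiv (localField q)).toMonoidHom.comp
      ((localGaloisToGlobal q).codRestrict (localField q).fixingSubgroup hmemK) with hφ
  have hφapp : ∀ γ x, φ γ x = localGaloisToGlobal q γ x := fun _ _ => rfl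
  have hφsurj : Function.Surjective φ := by
    intro σ
    obtain ⟨τ, hτ⟩ := (IntermediateField.fixingSubgroupEquiv (localField q)).surjective σ
    have hτD : (τ : AlgebraicClosure ℚ ≃ₐ[ℚ] AlgebraicClosure ℚ) ∈
        (localGaloisToGlobal q).range := by
      rw [hrange, ← fixingSubgroup_localField]
      exact τ.2
    obtain ⟨γ, hγ⟩ := hτD
    refine ⟨γ, ?_⟩
    rw [← hτ]
    apply AlgEquiv.ext
    intro x
    rw [hφapp, hγ]
    rfl
  have hcomap : (IntermediateField.extendScalars hKE).fixingSubgroup.comap φ = V := by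
    ext γ
    rw [Subgroup.mem_comap, IntermediateField.mem_fixingSubgroup_iff]
    constructor
    · intro h
      have h1 : localGaloisToGlobal q γ ∈
          (IntermediateField.fixedField (V.map (localGaloisToGlobal q))).fixingSubgroup := by
        rw [IntermediateField.mem_fixingSubgroup_iff]
        intro x hx
        exact h x hx
      rw [hfix] at h1
      obtain ⟨v, hv, hvγ⟩ := h1
      rw [← hinj hvγ]
      exact hv
    · intro hγ x hx
      have h1 : localGaloisToGlobal q γ ∈
          (IntermediateField.fixedField (V.map (localGaloisToGlobal q))).fixingSubgroup := by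
        rw [hfix]
        exact ⟨γ, hγ, rfl⟩
      rw [IntermediateField.mem_fixingSubgroup_iff] at h1
      exact h1 x hx
  rw [← Subgroup.index_comap_of_surjective _ hφsurj, hcomap]

/-- Level conditions pass to a finer level system. -/
theorem isLvlHom_of_finer {G : Type} [Group G] {𝒲 𝒰 : LevelSys G}
    (h : Fermat.Agent.H85.LcShap.Finer 𝒲 𝒰) {A : Type} [AddCommGroup A] {ψ : G → A}
    (hψ : IsLvlHom 𝒲 ψ) : IsLvlHom 𝒰 ψ := by
  obtain ⟨hadd, N, hN, hinv⟩ := hψ
  obtain ⟨N', hN', hle⟩ := h N hN
  exact ⟨hadd, N', hN', fun g n hn => hinv g n (hle hn)⟩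

/-- **The local count for an open subgroup** `V ≤ Γ_q` on which the mod `p` cyclotomic character
is trivial: `# Hom_lvl(V, ZMod p) = p ^ (2 + [Γ_q : V])` for `q = p`, `p ^ 2` for `q ≠ p`. -/
theorem localCount_of_open (p : ℕ) [Fact p.Prime] (hp2 : p ≠ 2) (q : Nat.Primes)
    (V : Subgroup (primeLocalGaloisGroup q))
    (hV : ∃ N ∈ (pullbackLevelSys (primeLocalToGlobal q)).sets, N ≤ V)
    (hcyc : ∀ s ∈ V, cycloChar p (primeLocalToGlobal q s) = 1) :
    Nat.card {ψ : V → ZMod p //
        IsLvlHom ((pullbackLevelSys (primeLocalToGlobal q)).restrict V hV) ψ}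
      = if q = pPrime p then p ^ (2 + V.index) else p ^ 2 := by
  have : Fact (q : ℕ).Prime := ⟨q.2⟩
  have hp : p.Prime := Fact.out
  have : NeZero p := ⟨hp.ne_zero⟩
  have hV' := hV
  obtain ⟨N, ⟨-, -, F, hF, hFN⟩, hNV⟩ := hV'
  have := hF
  set r : primeLocalGaloisGroup q →* Fermat.Agent.H13.Cft.GQ := primeLocalToGlobal q with hr
  have hrange : r.range = Dq (q : ℕ) := range_localGaloisToGlobal (q : ℕ)
  have hinj : Function.Injective r := localGaloisToGlobal_injective (q : ℕ)
  set W : Subgroup Fermat.Agent.H13.Cft.GQ := V.map r with hWdef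
  have hWD : W ≤ Dq (q : ℕ) := by
    rw [← hrange]
    rintro _ ⟨v, _, rfl⟩
    exact ⟨v, rfl⟩
  have hUW : F.fixingSubgroup ⊓ Dq (q : ℕ) ≤ W := by
    rintro σ ⟨hσF, hσD⟩
    rw [← hrange] at hσD
    obtain ⟨τ, rfl⟩ := hσD
    exact ⟨τ, hNV (hFN hσF), rfl⟩
  set E : IntermediateField ℚ (AlgebraicClosure ℚ) := IntermediateField.fixedField W with hEdef
  have hE : IsLocalFinite (q : ℕ) E := isLocalFinite_fixedField_of_between (q : ℕ) hWD F hUW
  have hfix : E.fixingSubgroup = W := fixingSubgroup_fixedField_of_between (q : ℕ) hWD F hUW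
  -- `ζ_p ∈ E`
  obtain ⟨ζ, hζ⟩ := HasEnoughRootsOfUnity.exists_primitiveRoot (AlgebraicClosure ℚ) p
  have hζE : ζ ∈ E := by
    rw [hEdef, IntermediateField.mem_fixedField_iff]
    rintro σ ⟨v, hv, rfl⟩
    exact apply_eq_of_cycloChar_eq_one p (hcyc v hv) hζ.pow_eq_one
  -- the isomorphism `V ≃* Gal(ℚ̄/E)`
  have hmem : ∀ v : V, (r.comp V.subtype) v ∈ E.fixingSubgroup := by
    intro v
    rw [hfix]
    exact ⟨v, v.2, rfl⟩
  set f : V →* E.fixingSubgroup := (r.comp V.subtype).codRestrict E.fixingSubgroup hmem with hf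
  have hbij : Function.Bijective f := by
    constructor
    · intro v v' hvv'
      have h1 : r v = r v' := congrArg Subtype.val hvv'
      exact Subtype.ext (hinj h1)
    · rintro ⟨σ, hσ⟩
      rw [hfix] at hσ
      obtain ⟨v, hv, rfl⟩ := hσ
      exact ⟨⟨v, hv⟩, rfl⟩
  set e : V ≃* E.fixingSubgroup := MulEquiv.ofBijective f hbij with he
  have hcomm : ∀ v, E.fixingSubgroup.subtype (e v) = (r.comp V.subtype) v := fun _ => rfl
  have hcomm' : ∀ σ, (r.comp V.subtype) (e.symm σ) = E.fixingSubgroup.subtype σ := by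
    intro σ
    rw [← hcomm, MulEquiv.apply_symm_apply]
  have h₁ := Fermat.Agent.H85.LcShap.lcs_finer_restrict r V hV
  have h₂ := Fermat.Agent.H85.LcShap.lcs_finer_pullback r V hV
  -- the count for `E`
  have hcard := Fermat.Agent.H97.fieldH1Card p hp2 (q : ℕ) E hE ⟨ζ, hζE, hζ⟩
  -- transport along `e`
  have hequiv : {ψ : V → ZMod p // IsLvlHom ((pullbackLevelSys r).restrict V hV) ψ} ≃
      {χ : E.fixingSubgroup → ZMod p //
        IsLvlHom (pullbackLevelSys E.fixingSubgroup.subtype) χ} :=
    { toFun := fun ψ => ⟨fun σ => ψ.1 (e.symm σ),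
        isLvlHom_comp e.symm E.fixingSubgroup.subtype (r.comp V.subtype) hcomm'
          (isLvlHom_of_finer h₁ ψ.2)⟩
      invFun := fun χ => ⟨fun v => χ.1 (e v),
        isLvlHom_of_finer h₂
          (isLvlHom_comp e (r.comp V.subtype) E.fixingSubgroup.subtype hcomm χ.2)⟩
      left_inv := by
        intro ψ
        apply Subtype.ext
        funext v
        show ψ.1 (e.symm (e v)) = ψ.1 v
        rw [MulEquiv.symm_apply_apply]
      right_inv := by
        intro χ
        apply Subtype.ext
        funext σ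
        show χ.1 (e (e.symm σ)) = χ.1 σ
        rw [MulEquiv.apply_symm_apply] }
  rw [Nat.card_congr hequiv, hcard]
  have hidx : IntermediateField.relfinrank (localField (q : ℕ)) E = V.index :=
    relfinrank_fixedField_map_eq_index (q : ℕ) V hfix
  have hiff : (q : ℕ) = p ↔ q = pPrime p := by
    constructor
    · intro h
      exact Subtype.ext h
    · intro h
      rw [h]
      rfl
  by_cases hqp : (q : ℕ) = p
  · rw [if_pos hqp, if_pos (hiff.mp hqp), hidx]
  · rw [if_neg hqp, if_neg (fun h => hqp (hiff.mpr h))]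

/-- **[GC-LOC-U]** the local count in U-language. -/
theorem localCountU : Fermat.Agent.H76.Cft.LocalCountUStatement := by
  intro p _ hp2 S _ hχ U hU v g
  have hcyc : ∀ s ∈ mackeySubgroup ((arithDatumQ p S hχ).loc v) U g,
      cycloChar p (primeLocalToGlobal v.1 s) = 1 := by
    intro s hs
    have h1 : cycloChar p (g * primeLocalToGlobal v.1 s * g⁻¹) = 1 := hU.2 _ hs
    rw [map_mul, map_mul, map_inv, mul_comm, inv_mul_cancel_left] at h1
    exact h1
  exact localCount_of_open p hp2 v.1 (mackeySubgroup ((arithDatumQ p S hχ).loc v) U g)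
    (mackeySubgroup_open ((arithDatumQ p S hχ).loc v) U g ((arithDatumQ p S hχ).compat v) hU.1)
    hcyc

end Fermat.Agent.H47.Cft
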