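import Mathlib

/-!
# P-CFT row 824 ([N6-G]), core: pure group theory (helper47)

If `Z / B` is a torsion abelian group with at most `K` elements killed by `p`, then
`Z / (Z^p B)` has at most `K` elements: there is a system of representatives `R` with
`#R ≤ K`.  Mathlib only.

* `index_range_powMonoidHom` : in a finite commutative group, `[G : G^p] = #G[p]`;
* `card_le_of_distinct_mod_pow` : every finite set of elements of `Z` which are pairwise
  incongruent modulo `Z^p B` has at most `K` elements;
* `exists_reps_mod_pow` : the system of representatives.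
-/

set_option autoImplicit false
set_option linter.style.haveILetI false

namespace Fermat.Agent.H47.Cft

/-- In a finite commutative group, the index of the subgroup of `p`-th powers equals the number
of elements killed by `p`. -/
theorem index_range_powMonoidHom {G : Type*} [CommGroup G] [Finite G] (p : ℕ) :
    (powMonoidHom p : G →* G).range.index = Nat.card (powMonoidHom p : G →* G).ker := by
  have h1 := Subgroup.card_mul_index (powMonoidHom p : G →* G).range
  have h2 := Subgroup.card_mul_index (powMonoidHom p : G →* G).ker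
  rw [Subgroup.index_ker] at h2
  have h3 : 0 < Nat.card (powMonoidHom p : G →* G).range := Nat.card_pos
  have h4 : Nat.card (powMonoidHom p : G →* G).range * (powMonoidHom p : G →* G).range.index
      = Nat.card (powMonoidHom p : G →* G).range * Nat.card (powMonoidHom p : G →* G).ker := by
    rw [h1, mul_comm, h2]
  exact Nat.eq_of_mul_eq_mul_left h3 h4

section

variable {Z : Type*} [CommGroup Z] (B : Subgroup Z) (p K : ℕ)

/-- Every finite set of elements of `Z` which are pairwise incongruent modulo `Z^p B` has at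
most `K` elements, if `Z / B` is torsion with at most `K` elements killed by `p`. -/
theorem card_le_of_distinct_mod_pow
    (htors : ∀ z : Z, ∃ m : ℕ, 0 < m ∧ z ^ m ∈ B)
    (hP : ∀ X : Finset Z, (∀ z ∈ X, z ^ p ∈ B) →
      (∀ z ∈ X, ∀ z' ∈ X, z * z'⁻¹ ∈ B → z = z') → X.card ≤ K)
    (X : Finset Z)
    (hX : ∀ z ∈ X, ∀ z' ∈ X, (∃ w : Z, ∃ b ∈ B, z * z'⁻¹ = w ^ p * b) → z = z') :
    X.card ≤ K := by
  classical
  -- the quotient `H = Z / B` and the subgroup `H'` generated by the image of `X`
  let π : Z →* Z ⧸ B := QuotientGroup.mk' B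
  have hπ1 : ∀ z : Z, π z = 1 ↔ z ∈ B := fun z => QuotientGroup.eq_one_iff z
  let Y : Finset (Z ⧸ B) := X.image π
  let H' : Subgroup (Z ⧸ B) := Subgroup.closure (Y : Set (Z ⧸ B))
  haveI hfg : Group.FG H' := (Group.fg_iff_subgroup_fg H').mpr ⟨Y, rfl⟩
  have htorsH : IsMulTorsion H' := by
    intro h
    obtain ⟨z, hz⟩ := QuotientGroup.mk'_surjective B (h : Z ⧸ B)
    obtain ⟨m, hm, hzm⟩ := htors z
    rw [isOfFinOrder_iff_pow_eq_one]
    refine ⟨m, hm, Subtype.ext ?_⟩
    rw [Subgroup.coe_pow, Subgroup.coe_one, ← hz, ← map_pow]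
    exact (hπ1 _).mpr hzm
  haveI : Finite H' := CommGroup.finite_of_fg_isMulTorsion H' htorsH
  have hidx := index_range_powMonoidHom (G := H') p
  have hYmem : ∀ z ∈ X, π z ∈ H' := fun z hz =>
    Subgroup.subset_closure (Finset.mem_coe.mpr (Finset.mem_image_of_mem π hz))
  -- `X` injects into `H' / H'^p`
  let φ : X → H' ⧸ (powMonoidHom p : H' →* H').range :=
    fun z => QuotientGroup.mk ⟨π z, hYmem z z.2⟩
  have hφ : Function.Injective φ := by
    intro z z' hzz'
    have h1 := QuotientGroup.eq.mp hzz'
    obtain ⟨h, hh⟩ := h1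
    obtain ⟨w, hw⟩ := QuotientGroup.mk'_surjective B (h : Z ⧸ B)
    have h2 : (h : Z ⧸ B) ^ p = (π z)⁻¹ * π z' := by
      have := congrArg (Subtype.val) hh
      simpa using this
    apply Subtype.ext
    symm
    apply hX z' z'.2 z z.2
    refine ⟨w, (z' : Z) * (z : Z)⁻¹ * (w ^ p)⁻¹, ?_, ?_⟩
    · rw [← hπ1]
      rw [map_mul, map_mul, map_inv, map_inv, map_pow]
      have hw' : π w = (h : Z ⧸ B) := hw
      rw [hw', h2]
      rw [mul_comm (π ↑z') _, mul_inv_cancel]
    · rw [mul_comm ((z' : Z) * (z : Z)⁻¹), mul_inv_cancel_left]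
  have h1 : X.card ≤ (powMonoidHom p : H' →* H').range.index := by
    have h := Nat.card_le_card_of_injective φ hφ
    rw [Nat.card_eq_fintype_card, Fintype.card_coe] at h
    exact h
  -- `H'[p]` has at most `K` elements
  have h2 : Nat.card (powMonoidHom p : H' →* H').ker ≤ K := by
    haveI : Fintype (powMonoidHom p : H' →* H').ker := Fintype.ofFinite _
    let lift : (powMonoidHom p : H' →* H').ker → Z := fun h => Quotient.out ((h : H') : Z ⧸ B)
    have hlift : ∀ h : (powMonoidHom p : H' →* H').ker, π (lift h) = ((h : H') : Z ⧸ B) :=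
      fun h => QuotientGroup.out_eq' _
    have hinj : Function.Injective lift := by
      intro h h' hhh'
      apply Subtype.ext
      apply Subtype.ext
      rw [← hlift h, ← hlift h', hhh']
    have hcard : (Finset.univ.image lift).card = Nat.card (powMonoidHom p : H' →* H').ker := by
      rw [Finset.card_image_of_injective _ hinj, Finset.card_univ, Nat.card_eq_fintype_card]
    rw [← hcard]
    apply hP
    · intro z hz
      obtain ⟨h, -, rfl⟩ := Finset.mem_image.mp hz
      rw [← hπ1, map_pow, hlift h]
      have hk : (powMonoidHom p : H' →* H') (h : H') = 1 := h.2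
      have := congrArg (Subtype.val) hk
      simpa using this
    · intro z hz z' hz' hzz'
      obtain ⟨h, -, rfl⟩ := Finset.mem_image.mp hz
      obtain ⟨h', -, rfl⟩ := Finset.mem_image.mp hz'
      have h3 : π (lift h * (lift h')⁻¹) = 1 := (hπ1 _).mpr hzz'
      rw [map_mul, map_inv, mul_inv_eq_one] at h3
      have h4 : h = h' := by
        apply Subtype.ext
        apply Subtype.ext
        rw [← hlift h, ← hlift h', h3]
      rw [h4]
  omega

/-- **[N6-G], core.**  If `Z / B` is a torsion abelian group with at most `K` elements killed by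
`p`, then `Z / (Z^p B)` has a system of representatives with at most `K` elements. -/
theorem exists_reps_mod_pow
    (htors : ∀ z : Z, ∃ m : ℕ, 0 < m ∧ z ^ m ∈ B)
    (hP : ∀ X : Finset Z, (∀ z ∈ X, z ^ p ∈ B) →
      (∀ z ∈ X, ∀ z' ∈ X, z * z'⁻¹ ∈ B → z = z') → X.card ≤ K) :
    ∃ R : Finset Z, R.card ≤ K ∧ ∀ z : Z, ∃ r ∈ R, ∃ w : Z, ∃ b ∈ B, z = r * w ^ p * b := by
  classical
  -- extend a good set until it is complete
  have key : ∀ d : ℕ, ∀ R : Finset Z,
      (∀ z ∈ R, ∀ z' ∈ R, (∃ w : Z, ∃ b ∈ B, z * z'⁻¹ = w ^ p * b) → z = z') →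
      K - R.card = d →
      ∃ R' : Finset Z, R'.card ≤ K ∧ ∀ z : Z, ∃ r ∈ R', ∃ w : Z, ∃ b ∈ B, z = r * w ^ p * b := by
    intro d
    induction d using Nat.strong_induction_on with
    | _ d ih =>
      intro R hR hd
      have hRK : R.card ≤ K := card_le_of_distinct_mod_pow B p K htors hP R hR
      by_cases hcomp : ∀ z : Z, ∃ r ∈ R, ∃ w : Z, ∃ b ∈ B, z = r * w ^ p * b
      · exact ⟨R, hRK, hcomp⟩
      · obtain ⟨z, hz⟩ := not_forall.mp hcomp
        have hz' : ∀ r ∈ R, ∀ w : Z, ∀ b ∈ B, z ≠ r * w ^ p * b := by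
          intro r hr w b hb h
          exact hz ⟨r, hr, w, b, hb, h⟩
        have hzR : z ∉ R := fun h => hz' z h 1 1 B.one_mem (by simp)
        have hgood : ∀ x ∈ insert z R, ∀ x' ∈ insert z R,
            (∃ w : Z, ∃ b ∈ B, x * x'⁻¹ = w ^ p * b) → x = x' := by
          intro x hx x' hx' hxx'
          rcases Finset.mem_insert.mp hx with rfl | hxR
          · rcases Finset.mem_insert.mp hx' with rfl | hx'R
            · rfl
            · exfalso
              obtain ⟨w, b, hb, h⟩ := hxx'
              refine hz' x' hx'R w b hb ?_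
              rw [mul_assoc, ← h, mul_comm x x'⁻¹, mul_inv_cancel_left]
          · rcases Finset.mem_insert.mp hx' with rfl | hx'R
            · exfalso
              obtain ⟨w, b, hb, h⟩ := hxx'
              refine hz' x hxR w⁻¹ b⁻¹ (B.inv_mem hb) ?_
              have h5 : x' = x * (w ^ p * b)⁻¹ := by
                rw [← h, mul_inv_rev, inv_inv, mul_comm x' x⁻¹, mul_inv_cancel_left]
              rw [h5, mul_assoc, inv_pow, mul_inv]
            · exact hR x hxR x' hx'R hxx'
        have hcard : (insert z R).card = R.card + 1 := Finset.card_insert_of_notMem hzR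
        have hle : (insert z R).card ≤ K :=
          card_le_of_distinct_mod_pow B p K htors hP _ hgood
        exact ih (K - (insert z R).card) (by omega) (insert z R) hgood rfl
  exact key (K - (∅ : Finset Z).card) ∅ (by simp) rfl

end

end Fermat.Agent.H47.Cft
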