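import Fermat.Agent.H54.Cft.N6Interfaces
import Fermat.Agent.H47.Cft.TorsionQuotPowCore

/-!
# P-CFT row 824 ([N6-G]) (helper47)

`torsionQuotPow : Fermat.Agent.H54.Cft.TorsionQuotPowStatement` (unconditional): if `Z / B` is a
torsion abelian group with at most `K` elements killed by `p`, then `Z / (Z^p B)` has a system of
representatives with at most `K` elements.  The proof is
`Fermat.Agent.H47.Cft.exists_reps_mod_pow` (Mathlib only; primality of `p` is not used).
-/

set_option autoImplicit false

namespace Fermat.Agent.H47.Cft

/-- **[N6-G]** (row 824). -/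
theorem torsionQuotPow : Fermat.Agent.H54.Cft.TorsionQuotPowStatement :=
  fun _ _ B p K _ htors hP => exists_reps_mod_pow B p K htors hP

end Fermat.Agent.H47.Cft
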